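import Mathlib
import Fermat.Agent.S24.Generic.G3Adapter
import Fermat.Agent.S24.HolHRot

set_option autoImplicit false
set_option linter.dupNamespace false

/-!
# Kummer characters: abstract part

* `exists_eq_mul_of_dvd_ord`, `mem_of_mul_eq`: the "every order function is a multiple of a
  place" principle.  If `o` is an order function on a domain `A` with fraction field `F`
  (trivial on the constants `K`) all of whose values lie in a subgroup `Z ≤ ℤ`, and `a / b` has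
  divisor divisible by `m` at every place of `F / K`, then `o a - o b ∈ m • Z`; consequently an
  "`m`-th root of `a * b ^ (m - 1)`" has its order in `Z`.
* `IsEig`, `mult`: eigenfunctions of `compSL γ` on `HolH` and their multipliers; a holomorphic
  function whose `m`-th power is `γ`-invariant is an eigenfunction with multiplier in `μ_m`.
-/

noncomputable section

open scoped MatrixGroups
open AlgebraicCurve UpperHalfPlane
open Fermat.Agent.S24.FibreCount Fermat.Agent.S24.Generic.G3Adapter Fermat.Agent.S24.HolH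

namespace Fermat.Agent.S30.KummerChar

/-! ### Order functions are multiples of places -/

section Abstract

variable {K F A : Type*} [Field K] [Field F] [Algebra K F] [CommRing A] [IsDomain A]
  [Algebra K A] [Algebra A F] [IsScalarTower K A F] [IsFractionRing A F]

/-- If `o` is an order function on `A` (trivial on constants) with values in `Z ≤ ℤ` and the
divisor of `a / b` is divisible by `m` at every place, then `o a - o b ∈ m • Z`. -/
theorem exists_eq_mul_of_dvd_ord (o : A → ℤ)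
    (hmul : ∀ x y : A, x ≠ 0 → y ≠ 0 → o (x * y) = o x + o y)
    (hadd : ∀ x y : A, x ≠ 0 → y ≠ 0 → x + y ≠ 0 → min (o x) (o y) ≤ o (x + y))
    (hK : ∀ c : K, c ≠ 0 → o (algebraMap K A c) = 0)
    (Z : AddSubgroup ℤ) (hZ : ∀ x : A, x ≠ 0 → o x ∈ Z)
    (m : ℕ) (a b : A) (ha : a ≠ 0) (hb : b ≠ 0)
    (hdiv : ∀ v : Place K F, (m : ℤ) ∣ v.ord (algebraMap A F a) - v.ord (algebraMap A F b)) :
    ∃ t ∈ Z, o a - o b = m * t := by
  have hinjA : Function.Injective (algebraMap A F) := IsFractionRing.injective A F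
  let e : F →+* FractionRing A := ((FractionRing.algEquiv A F).symm : F →+* FractionRing A)
  have he : ∀ x : A, e (algebraMap A F x) = algebraMap A (FractionRing A) x := fun x =>
    (FractionRing.algEquiv A F).symm.commutes x
  let u : F → ℤ := fun f => ordFrac o (e f)
  have hu : IsOrd u := (isOrd_ordFrac hmul hadd).comp e
  have hux : ∀ x : A, x ≠ 0 → u (algebraMap A F x) = o x := by
    intro x hx
    show ordFrac o (e (algebraMap A F x)) = o x
    rw [he, ordFrac_algebraMap hmul hx]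
  have hne : ∀ x : A, x ≠ 0 → algebraMap A F x ≠ 0 := fun x hx =>
    (map_ne_zero_iff _ hinjA).mpr hx
  have huK : ∀ c : K, c ≠ 0 → u (algebraMap K F c) = 0 := by
    intro c hc
    have hc' : algebraMap K A c ≠ 0 := by
      intro h0
      have h1 : algebraMap K F c = 0 := by
        rw [IsScalarTower.algebraMap_apply K A F, h0, map_zero]
      exact hc ((map_eq_zero _).mp h1)
    rw [IsScalarTower.algebraMap_apply K A F, hux _ hc']
    exact hK c hc
  have huZ : ∀ f : F, f ≠ 0 → u f ∈ Z := by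
    intro f hf
    obtain ⟨x, y, hy, rfl⟩ := IsFractionRing.div_surjective A f
    have hy0 : y ≠ 0 := nonZeroDivisors.ne_zero hy
    have hx0 : x ≠ 0 := by
      rintro rfl
      simp at hf
    rw [hu.map_div (hne x hx0) (hne y hy0), hux x hx0, hux y hy0]
    exact Z.sub_mem (hZ x hx0) (hZ y hy0)
  have hab : o a - o b = u (algebraMap A F a / algebraMap A F b) := by
    rw [hu.map_div (hne a ha) (hne b hb), hux a ha, hux b hb]
  by_cases hnt : ∃ f : F, f ≠ 0 ∧ u f < 0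
  · obtain ⟨κ, -, ⟨π, hπ0, hπ⟩, hκ⟩ := exists_placeOfOrd_ord u hu huK hnt
    obtain ⟨s, hs⟩ := hdiv (placeOfOrd u hu huK hnt)
    refine ⟨s * κ, ?_, ?_⟩
    · have h1 : κ ∈ Z := hπ ▸ huZ π hπ0
      have h2 := Z.zsmul_mem h1 s
      rwa [smul_eq_mul] at h2
    · rw [hab, hκ _ (div_ne_zero (hne a ha) (hne b hb)),
        (isOrd_place (placeOfOrd u hu huK hnt)).map_div (hne a ha) (hne b hb), hs]
      ring
  · refine ⟨0, Z.zero_mem, ?_⟩
    have hnn : ∀ f : F, f ≠ 0 → 0 ≤ u f := by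
      intro f hf
      by_contra hlt
      exact hnt ⟨f, hf, not_le.mp hlt⟩
    have hf0 : algebraMap A F a / algebraMap A F b ≠ 0 := div_ne_zero (hne a ha) (hne b hb)
    have h1 := hnn _ hf0
    have h2 := hnn _ (inv_ne_zero hf0)
    rw [hu.map_inv hf0] at h2
    rw [hab, mul_zero]
    omega

/-- The order of an "`m`-th root of `a * b ^ (m - 1)`" lies in `Z`. -/
theorem mem_of_mul_eq (o : A → ℤ)
    (hmul : ∀ x y : A, x ≠ 0 → y ≠ 0 → o (x * y) = o x + o y)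
    (hadd : ∀ x y : A, x ≠ 0 → y ≠ 0 → x + y ≠ 0 → min (o x) (o y) ≤ o (x + y))
    (hK : ∀ c : K, c ≠ 0 → o (algebraMap K A c) = 0)
    (Z : AddSubgroup ℤ) (hZ : ∀ x : A, x ≠ 0 → o x ∈ Z)
    (m : ℕ) (hm : 0 < m) (a b : A) (ha : a ≠ 0) (hb : b ≠ 0)
    (hdiv : ∀ v : Place K F, (m : ℤ) ∣ v.ord (algebraMap A F a) - v.ord (algebraMap A F b))
    (k : ℤ) (hk : (m : ℤ) * k = o a + ((m : ℤ) - 1) * o b) : k ∈ Z := by
  obtain ⟨t, ht, h⟩ := exists_eq_mul_of_dvd_ord (F := F) o hmul hadd hK Z hZ m a b ha hb hdiv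
  have hm0 : (m : ℤ) ≠ 0 := by exact_mod_cast hm.ne'
  have h1 : (m : ℤ) * k = (m : ℤ) * (t + o b) := by
    rw [hk]
    linear_combination h
  rw [mul_left_cancel₀ hm0 h1]
  exact Z.add_mem ht (hZ b hb)

end Abstract

/-! ### Eigenfunctions of `compSL γ` -/

section Eig

/-- `H` is an eigenfunction of `compSL γ`. -/
def IsEig (γ : SL(2, ℤ)) (H : HolH) : Prop := ∃ c : ℂ, compSL γ H = algebraMap ℂ HolH c * H

open Classical in
/-- The multiplier of `H` under `γ` (junk value `1` if `H` is not an eigenfunction). -/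
def mult (γ : SL(2, ℤ)) (H : HolH) : ℂ := if h : IsEig γ H then h.choose else 1

theorem IsEig.compSL_eq {γ : SL(2, ℤ)} {H : HolH} (h : IsEig γ H) :
    compSL γ H = algebraMap ℂ HolH (mult γ H) * H := by
  unfold mult
  rw [dif_pos h]
  exact h.choose_spec

theorem algebraMap_mul_left_injective {H : HolH} (hH : H ≠ 0) {c c' : ℂ}
    (h : algebraMap ℂ HolH c * H = algebraMap ℂ HolH c' * H) : c = c' :=
  (algebraMap ℂ HolH).injective (mul_right_cancel₀ hH h)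

theorem mult_eq_of_eq {γ : SL(2, ℤ)} {H : HolH} (hH : H ≠ 0) {c : ℂ}
    (h : compSL γ H = algebraMap ℂ HolH c * H) : mult γ H = c := by
  have h1 : IsEig γ H := ⟨c, h⟩
  have h2 := h1.compSL_eq
  rw [h] at h2
  exact (algebraMap_mul_left_injective hH h2).symm

theorem compSL_ne_zero (γ : SL(2, ℤ)) {H : HolH} (hH : H ≠ 0) : compSL γ H ≠ 0 :=
  (map_ne_zero_iff _ (compSL_injective γ)).mpr hH

theorem IsEig.mult_ne_zero {γ : SL(2, ℤ)} {H : HolH} (h : IsEig γ H) (hH : H ≠ 0) :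
    mult γ H ≠ 0 := by
  intro h0
  have h1 := h.compSL_eq
  rw [h0, map_zero, zero_mul] at h1
  exact compSL_ne_zero γ hH h1

theorem isEig_of_compSL_eq {γ : SL(2, ℤ)} {H : HolH} (h : compSL γ H = H) : IsEig γ H :=
  ⟨1, by rw [map_one, one_mul, h]⟩

theorem mult_eq_one_of_compSL_eq {γ : SL(2, ℤ)} {H : HolH} (hH : H ≠ 0) (h : compSL γ H = H) :
    mult γ H = 1 :=
  mult_eq_of_eq hH (by rw [map_one, one_mul, h])

theorem isEig_one (H : HolH) : IsEig 1 H := isEig_of_compSL_eq (compSL_one H)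

theorem mult_one {H : HolH} (hH : H ≠ 0) : mult 1 H = 1 :=
  mult_eq_one_of_compSL_eq hH (compSL_one H)

theorem IsEig.mul_fun {γ : SL(2, ℤ)} {H₁ H₂ : HolH} (h₁ : IsEig γ H₁) (h₂ : IsEig γ H₂) :
    IsEig γ (H₁ * H₂) :=
  ⟨mult γ H₁ * mult γ H₂, by rw [map_mul, h₁.compSL_eq, h₂.compSL_eq, map_mul]; ring⟩

theorem IsEig.mult_mul_fun {γ : SL(2, ℤ)} {H₁ H₂ : HolH} (h₁ : IsEig γ H₁) (h₂ : IsEig γ H₂)
    (hH₁ : H₁ ≠ 0) (hH₂ : H₂ ≠ 0) : mult γ (H₁ * H₂) = mult γ H₁ * mult γ H₂ :=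
  mult_eq_of_eq (mul_ne_zero hH₁ hH₂)
    (by rw [map_mul, h₁.compSL_eq, h₂.compSL_eq, map_mul]; ring)

theorem IsEig.pow_fun {γ : SL(2, ℤ)} {H : HolH} (h : IsEig γ H) (n : ℕ) : IsEig γ (H ^ n) :=
  ⟨mult γ H ^ n, by rw [map_pow, h.compSL_eq, mul_pow, map_pow]⟩

theorem IsEig.mult_pow_fun {γ : SL(2, ℤ)} {H : HolH} (h : IsEig γ H) (hH : H ≠ 0) (n : ℕ) :
    mult γ (H ^ n) = mult γ H ^ n :=
  mult_eq_of_eq (pow_ne_zero n hH) (by rw [map_pow, h.compSL_eq, mul_pow, map_pow])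

theorem IsEig.smul_fun {γ : SL(2, ℤ)} {H : HolH} (h : IsEig γ H) (c : ℂ) :
    IsEig γ (algebraMap ℂ HolH c * H) :=
  ⟨mult γ H, by rw [map_mul, h.compSL_eq, AlgHom.commutes]; ring⟩

theorem IsEig.mult_smul_fun {γ : SL(2, ℤ)} {H : HolH} (h : IsEig γ H) (hH : H ≠ 0) {c : ℂ}
    (hc : c ≠ 0) : mult γ (algebraMap ℂ HolH c * H) = mult γ H :=
  mult_eq_of_eq (mul_ne_zero ((map_ne_zero_iff _ (algebraMap ℂ HolH).injective).mpr hc) hH)
    (by rw [map_mul, h.compSL_eq, AlgHom.commutes]; ring)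

theorem IsEig.mul {γ₁ γ₂ : SL(2, ℤ)} {H : HolH} (h₁ : IsEig γ₁ H) (h₂ : IsEig γ₂ H) :
    IsEig (γ₁ * γ₂) H :=
  ⟨mult γ₁ H * mult γ₂ H, by
    rw [compSL_mul, h₁.compSL_eq, map_mul, AlgHom.commutes, h₂.compSL_eq, map_mul]; ring⟩

theorem IsEig.mult_mul {γ₁ γ₂ : SL(2, ℤ)} {H : HolH} (h₁ : IsEig γ₁ H) (h₂ : IsEig γ₂ H)
    (hH : H ≠ 0) : mult (γ₁ * γ₂) H = mult γ₁ H * mult γ₂ H :=
  mult_eq_of_eq hH (by
    rw [compSL_mul, h₁.compSL_eq, map_mul, AlgHom.commutes, h₂.compSL_eq, map_mul]; ring)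

/-- Conjugation: `H` is an eigenfunction of `g γ g⁻¹` iff `H ∘ g` is one of `γ`. -/
theorem isEig_conj_iff (g γ : SL(2, ℤ)) (H : HolH) :
    IsEig (g * γ * g⁻¹) H ↔ IsEig γ (compSL g H) := by
  have key : compSL (g * γ * g⁻¹) H = compSL g⁻¹ (compSL γ (compSL g H)) := by
    rw [compSL_mul, compSL_mul]
  constructor
  · rintro ⟨c, hc⟩
    refine ⟨c, ?_⟩
    rw [key] at hc
    have h1 := congrArg (compSL g) hc
    rw [compSL_compSL_inv, map_mul, AlgHom.commutes] at h1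
    exact h1
  · rintro ⟨c, hc⟩
    refine ⟨c, ?_⟩
    rw [key, hc, map_mul, AlgHom.commutes, compSL_inv_compSL]

theorem mult_conj (g γ : SL(2, ℤ)) {H : HolH} (hH : H ≠ 0) (h : IsEig (g * γ * g⁻¹) H) :
    mult γ (compSL g H) = mult (g * γ * g⁻¹) H := by
  have key : compSL (g * γ * g⁻¹) H = compSL g⁻¹ (compSL γ (compSL g H)) := by
    rw [compSL_mul, compSL_mul]
  have hc := h.compSL_eq
  rw [key] at hc
  have h1 := congrArg (compSL g) hc
  rw [compSL_compSL_inv, map_mul, AlgHom.commutes] at h1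
  exact mult_eq_of_eq (compSL_ne_zero g hH) h1

/-- In `HolH`, `X ^ m = Y ^ m` forces `X = c • Y` for a constant `m`-th root of unity `c`. -/
theorem exists_const_of_pow_eq {m : ℕ} (hm : 0 < m) {X Y : HolH} (h : X ^ m = Y ^ m) :
    ∃ c : ℂ, c ^ m = 1 ∧ X = algebraMap ℂ HolH c * Y := by
  have : NeZero m := ⟨hm.ne'⟩
  have hζ0 := Complex.isPrimitiveRoot_exp m hm.ne'
  have hζ : IsPrimitiveRoot (algebraMap ℂ HolH (Complex.exp (2 * Real.pi * Complex.I / m))) m :=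
    hζ0.map_of_injective (algebraMap ℂ HolH).injective
  have h1 := hζ.pow_sub_pow_eq_prod_sub_mul X Y hm
  rw [h, sub_self] at h1
  obtain ⟨ξ, hξ, hX⟩ := Finset.prod_eq_zero_iff.mp h1.symm
  have hξ1 : ξ ^ m = 1 := (Polynomial.mem_nthRootsFinset hm 1).mp hξ
  obtain ⟨i, -, hi⟩ := hζ.eq_pow_of_pow_eq_one hξ1
  refine ⟨Complex.exp (2 * Real.pi * Complex.I / m) ^ i, ?_, ?_⟩
  · rw [pow_right_comm, hζ0.pow_eq_one, one_pow]
  · rw [map_pow, hi]
    exact sub_eq_zero.mp hX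

/-- A function whose `m`-th power is `γ`-invariant is an eigenfunction of `γ`. -/
theorem isEig_of_pow {m : ℕ} (hm : 0 < m) {γ : SL(2, ℤ)} {H : HolH}
    (h : compSL γ (H ^ m) = H ^ m) : IsEig γ H := by
  rw [map_pow] at h
  obtain ⟨c, -, hc⟩ := exists_const_of_pow_eq hm h
  exact ⟨c, hc⟩

theorem mult_pow_eq_one {m : ℕ} (hm : 0 < m) {γ : SL(2, ℤ)} {H : HolH} (hH : H ≠ 0)
    (h : compSL γ (H ^ m) = H ^ m) : mult γ H ^ m = 1 := by
  rw [map_pow] at h
  obtain ⟨c, hc1, hc⟩ := exists_const_of_pow_eq hm h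
  rw [mult_eq_of_eq hH hc, hc1]

/-- The multiplier character of a common eigenfunction of a subgroup. -/
def eigChar (Γ : Subgroup SL(2, ℤ)) (H : HolH) (hH : H ≠ 0) (heig : ∀ γ ∈ Γ, IsEig γ H) :
    Γ →* ℂˣ where
  toFun γ := Units.mk0 (mult (γ : SL(2, ℤ)) H) ((heig γ γ.2).mult_ne_zero hH)
  map_one' := Units.ext (mult_one hH)
  map_mul' γ₁ γ₂ := Units.ext ((heig γ₁ γ₁.2).mult_mul (heig γ₂ γ₂.2) hH)

@[simp] theorem eigChar_apply (Γ : Subgroup SL(2, ℤ)) (H : HolH) (hH : H ≠ 0)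
    (heig : ∀ γ ∈ Γ, IsEig γ H) (γ : Γ) :
    ((eigChar Γ H hH heig γ : ℂˣ) : ℂ) = mult (γ : SL(2, ℤ)) H := rfl

theorem compSL_eq_eigChar (Γ : Subgroup SL(2, ℤ)) (H : HolH) (hH : H ≠ 0)
    (heig : ∀ γ ∈ Γ, IsEig γ H) (γ : Γ) :
    compSL (γ : SL(2, ℤ)) H = algebraMap ℂ HolH ((eigChar Γ H hH heig γ : ℂˣ) : ℂ) * H :=
  (heig γ γ.2).compSL_eq

end Eig

end Fermat.Agent.S30.KummerChar

end
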