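import Mathlib
import Fermat.Agent.S24.Theta
import Fermat.Agent.S30.KummerChar.Basic

set_option autoImplicit false
set_option linter.dupNamespace false

/-!
# Kummer characters: `m`-th roots of modular functions on the upper half plane

Setting: `a b : A0 N` nonzero (so `f = a / b` is a typical nonzero element of `F_N`), and a
holomorphic `H` on `ℍ` with `H ^ m = θ a * θ b ^ (m - 1)` (an `m`-th root of `f * b ^ m`).
Then `H` is an eigenfunction of every `γ ∈ Γ₀(N)`, with multiplier an `m`-th root of unity; the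
multipliers form a character `kummerChar : Γ₀(N) →* ℂˣ`.
-/

noncomputable section

open scoped MatrixGroups
open AlgebraicCurve UpperHalfPlane ModularCurve CongruenceSubgroup
open Fermat.Agent.S24.HolH Fermat.Agent.S24.Theta Fermat.Agent.S24.Modular

namespace Fermat.Agent.S30.KummerChar

variable (ι : Kbar →+* ℂ) {N : ℕ} {m : ℕ}

/-- `H` is a holomorphic `m`-th root of `θ a * θ b ^ (m - 1)`. -/
def IsKummerRoot (m : ℕ) (a b : A0 N) (H : HolH) : Prop :=
  H ^ m = theta ι N a * theta ι N b ^ (m - 1)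

variable {ι}

theorem theta_ne_zero {x : A0 N} (hx : x ≠ 0) : theta ι N x ≠ 0 :=
  (map_ne_zero_iff _ (theta_injective ι N)).mpr hx

theorem IsKummerRoot.pow_ne_zero {a b : A0 N} {H : HolH} (h : IsKummerRoot ι m a b H)
    (ha : a ≠ 0) (hb : b ≠ 0) : H ^ m ≠ 0 := by
  rw [h]
  exact mul_ne_zero (theta_ne_zero ha) (_root_.pow_ne_zero _ (theta_ne_zero hb))

theorem IsKummerRoot.ne_zero {a b : A0 N} {H : HolH} (h : IsKummerRoot ι m a b H)
    (hm : 0 < m) (ha : a ≠ 0) (hb : b ≠ 0) : H ≠ 0 := by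
  rintro rfl
  exact h.pow_ne_zero ha hb (zero_pow hm.ne')

theorem IsKummerRoot.compSL_pow {a b : A0 N} {H : HolH} (h : IsKummerRoot ι m a b H)
    {γ : SL(2, ℤ)} (hγ : γ ∈ Gamma0 N) : compSL γ (H ^ m) = H ^ m := by
  rw [h, map_mul, map_pow, compSL_theta_of_mem_Gamma0 hγ, compSL_theta_of_mem_Gamma0 hγ]

theorem IsKummerRoot.isEig {a b : A0 N} {H : HolH} (h : IsKummerRoot ι m a b H) (hm : 0 < m)
    {γ : SL(2, ℤ)} (hγ : γ ∈ Gamma0 N) : IsEig γ H :=
  isEig_of_pow hm (h.compSL_pow hγ)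

theorem IsKummerRoot.mult_pow {a b : A0 N} {H : HolH} (h : IsKummerRoot ι m a b H) (hm : 0 < m)
    (ha : a ≠ 0) (hb : b ≠ 0) {γ : SL(2, ℤ)} (hγ : γ ∈ Gamma0 N) : mult γ H ^ m = 1 :=
  mult_pow_eq_one hm (h.ne_zero hm ha hb) (h.compSL_pow hγ)

/-- The Kummer character of `f = a / b` attached to the root `H`. -/
def kummerChar {a b : A0 N} {H : HolH} (h : IsKummerRoot ι m a b H) (hm : 0 < m)
    (ha : a ≠ 0) (hb : b ≠ 0) : ↥(Gamma0 N) →* ℂˣ :=
  eigChar (Gamma0 N) H (h.ne_zero hm ha hb) (fun _ hγ => h.isEig hm hγ)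

theorem kummerChar_apply {a b : A0 N} {H : HolH} (h : IsKummerRoot ι m a b H) (hm : 0 < m)
    (ha : a ≠ 0) (hb : b ≠ 0) (γ : ↥(Gamma0 N)) :
    ((kummerChar h hm ha hb γ : ℂˣ) : ℂ) = mult (γ : SL(2, ℤ)) H := rfl

theorem compSL_eq_kummerChar {a b : A0 N} {H : HolH} (h : IsKummerRoot ι m a b H) (hm : 0 < m)
    (ha : a ≠ 0) (hb : b ≠ 0) (γ : ↥(Gamma0 N)) :
    compSL (γ : SL(2, ℤ)) H = algebraMap ℂ HolH ((kummerChar h hm ha hb γ : ℂˣ) : ℂ) * H :=
  (h.isEig hm γ.2).compSL_eq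

theorem kummerChar_pow {a b : A0 N} {H : HolH} (h : IsKummerRoot ι m a b H) (hm : 0 < m)
    (ha : a ≠ 0) (hb : b ≠ 0) (γ : ↥(Gamma0 N)) : kummerChar h hm ha hb γ ^ m = 1 :=
  Units.ext (by
    rw [Units.val_pow_eq_pow_val, kummerChar_apply]
    exact h.mult_pow hm ha hb γ.2)

/-- Products: a root for `(a₁, b₁)` times a root for `(a₂, b₂)` is a root for
`(a₁ * a₂, b₁ * b₂)`. -/
theorem IsKummerRoot.mul {a₁ b₁ a₂ b₂ : A0 N} {H₁ H₂ : HolH} (h₁ : IsKummerRoot ι m a₁ b₁ H₁)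
    (h₂ : IsKummerRoot ι m a₂ b₂ H₂) : IsKummerRoot ι m (a₁ * a₂) (b₁ * b₂) (H₁ * H₂) := by
  unfold IsKummerRoot at *
  rw [mul_pow, h₁, h₂, map_mul, map_mul, mul_pow]
  ring

/-- The trivial root: `θ b` is a root for `(b, b)`. -/
theorem isKummerRoot_self (hm : 0 < m) (b : A0 N) : IsKummerRoot ι m b b (theta ι N b) := by
  unfold IsKummerRoot
  rw [← pow_succ', Nat.sub_add_cancel hm]

/-- `m`-th powers: `θ c * θ b ^ (m - 1) ... ` the root of `(c ^ m, 1)` is `θ c`. -/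
theorem isKummerRoot_pow (c : A0 N) : IsKummerRoot ι m (c ^ m) 1 (theta ι N c) := by
  unfold IsKummerRoot
  rw [map_pow, map_one, one_pow, mul_one]

/-- The multiplier does not depend on the root nor on the representation `a / b` of `f`:
if `a * b' = a' * b` then roots for `(a, b)` and `(a', b')` have the same multipliers on
`Γ₀(N)`. -/
theorem IsKummerRoot.mult_eq {a b a' b' : A0 N} {H H' : HolH} (h : IsKummerRoot ι m a b H)
    (h' : IsKummerRoot ι m a' b' H') (hm : 0 < m) (ha : a ≠ 0) (hb : b ≠ 0) (ha' : a' ≠ 0)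
    (hb' : b' ≠ 0) (hab : a * b' = a' * b) {γ : SL(2, ℤ)} (hγ : γ ∈ Gamma0 N) :
    mult γ H = mult γ H' := by
  have hH := h.ne_zero hm ha hb
  have hH' := h'.ne_zero hm ha' hb'
  have hθb := theta_ne_zero (ι := ι) hb
  have hθb' := theta_ne_zero (ι := ι) hb'
  -- `(H * θ b') ^ m = (H' * θ b) ^ m`
  have hpow : (H * theta ι N b') ^ m = (H' * theta ι N b) ^ m := by
    have e1 : theta ι N a * theta ι N b' = theta ι N a' * theta ι N b := by
      rw [← map_mul, ← map_mul, hab]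
    have hm' : m = (m - 1) + 1 := (Nat.sub_add_cancel hm).symm
    have e2 : theta ι N b' ^ m = theta ι N b' ^ (m - 1) * theta ι N b' := by
      conv_lhs => rw [hm', pow_succ]
    have e3 : theta ι N b ^ m = theta ι N b ^ (m - 1) * theta ι N b := by
      conv_lhs => rw [hm', pow_succ]
    rw [mul_pow, mul_pow, h, h', e2, e3]
    linear_combination (theta ι N b ^ (m - 1) * theta ι N b' ^ (m - 1)) * e1
  obtain ⟨c, hc1, hc⟩ := exists_const_of_pow_eq hm hpow
  have hc0 : c ≠ 0 := by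
    rintro rfl
    rw [zero_pow hm.ne'] at hc1
    exact zero_ne_one hc1
  have e1 : IsEig γ H := h.isEig hm hγ
  have e2 : IsEig γ H' := h'.isEig hm hγ
  have i1 : IsEig γ (theta ι N b') := isEig_of_compSL_eq (compSL_theta_of_mem_Gamma0 hγ b')
  have i2 : IsEig γ (theta ι N b) := isEig_of_compSL_eq (compSL_theta_of_mem_Gamma0 hγ b)
  have m1 : mult γ (theta ι N b') = 1 :=
    mult_eq_one_of_compSL_eq hθb' (compSL_theta_of_mem_Gamma0 hγ b')
  have m2 : mult γ (theta ι N b) = 1 :=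
    mult_eq_one_of_compSL_eq hθb (compSL_theta_of_mem_Gamma0 hγ b)
  have l1 : mult γ (H * theta ι N b') = mult γ H := by
    rw [e1.mult_mul_fun i1 hH hθb', m1, mul_one]
  have l2 : mult γ (algebraMap ℂ HolH c * (H' * theta ι N b)) = mult γ H' := by
    rw [(e2.mul_fun i2).mult_smul_fun (mul_ne_zero hH' hθb) hc0, e2.mult_mul_fun i2 hH' hθb, m2,
      mul_one]
  rw [← l1, hc, l2]

end Fermat.Agent.S30.KummerChar

end
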