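import Mathlib
import Fermat.Agent.S24.CuspOrd
import Fermat.Agent.S24.Degree.Growth
import Fermat.Agent.S30.KummerChar.Root

set_option autoImplicit false
set_option linter.dupNamespace false

/-!
# Kummer characters are trivial on parabolic elements

If `m ∣ div (a / b)` and `H ^ m = θ a * θ b ^ (m - 1)`, then the multiplier of `H` under any
`g T^n g⁻¹ ∈ Γ₀(N)` (`g ∈ SL(2, ℤ)`) is `1`.  The proof runs at the cusp `g ∞` with the local
parameter `exp (2πiτ / (m N))`: the translate `H ∘ g` is `mN`-periodic with moderate growth, so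
it has an order `k` there, its multiplier under `τ ↦ τ + n` is `exp (2πi n k / (mN))`, and the
"order functions are multiples of places" principle shows `mN ∣ n k`.
-/

noncomputable section

open scoped MatrixGroups Topology Real
open AlgebraicCurve UpperHalfPlane ModularCurve CongruenceSubgroup Filter
open Fermat.Agent.S24.HolH Fermat.Agent.S24.Theta Fermat.Agent.S24.Modular
open Fermat.Agent.S24.CuspOrd Fermat.Agent.S24.Degree

namespace Fermat.Agent.S30.KummerChar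

local notation "𝕢" => Function.Periodic.qParam

/-! ### Group-theoretic preliminaries -/

theorem compSL_conj (g γ : SL(2, ℤ)) (H : HolH) :
    compSL γ (compSL g H) = compSL g (compSL (g * γ * g⁻¹) H) := by
  rw [← compSL_mul, ← compSL_mul]
  congr 1
  group

theorem IsEig.zpow_nat {γ : SL(2, ℤ)} {H : HolH} (h : IsEig γ H) (hH : H ≠ 0) (k : ℕ) :
    IsEig (γ ^ k) H ∧ mult (γ ^ k) H = mult γ H ^ k := by
  induction k with
  | zero =>
    rw [pow_zero, pow_zero]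
    exact ⟨isEig_one H, mult_one hH⟩
  | succ k ih =>
    rw [pow_succ, pow_succ]
    exact ⟨ih.1.mul h, by rw [ih.1.mult_mul h hH, ih.2]⟩

theorem conj_T_zpow_mem_Gamma0 (N : ℕ) (g : SL(2, ℤ)) (k : ℤ) (hk : (N : ℤ) ∣ k) :
    g * ModularGroup.T ^ k * g⁻¹ ∈ Gamma0 N := by
  rw [Gamma0_mem]
  have h : (g * ModularGroup.T ^ k * g⁻¹) 1 0 = -k * (g 1 0) ^ 2 := by
    show (g * ModularGroup.T ^ k * g⁻¹).1 1 0 = _
    rw [Matrix.SpecialLinearGroup.coe_mul, Matrix.SpecialLinearGroup.coe_mul,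
      ModularGroup.coe_T_zpow, Matrix.SpecialLinearGroup.coe_inv, Matrix.adjugate_fin_two]
    simp [Matrix.mul_apply, Fin.sum_univ_two]
    ring
  rw [h]
  obtain ⟨t, rfl⟩ := hk
  push_cast
  simp

theorem neg_one_mem_Gamma0 (N : ℕ) : (-1 : SL(2, ℤ)) ∈ Gamma0 N := by
  rw [Gamma0_mem]
  simp

/-! ### Membership in `MerInf` -/

theorem sPar_pow_natCast (M : ℕ) [NeZero M] (τ : ℍ) : sPar M τ ^ M = 𝕢 1 τ := by
  have hM : (M : ℂ) ≠ 0 := Nat.cast_ne_zero.mpr (NeZero.ne M)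
  unfold sPar Function.Periodic.qParam
  rw [← Complex.exp_nat_mul]
  congr 1
  push_cast
  field_simp

theorem norm_qParam_le_one' (τ : ℍ) : ‖𝕢 1 (τ : ℂ)‖ ≤ 1 :=
  Fermat.Agent.S24.Degree.norm_qParam_le_one τ

theorem periodic_of_compSL_T {M : ℕ} {f : HolH}
    (h : compSL (ModularGroup.T ^ (M : ℤ)) f = f) (τ : ℍ) :
    (f : ℍ → ℂ) ((M : ℝ) +ᵥ τ) = (f : ℍ → ℂ) τ := by
  have h3 := congrArg (fun F : HolH => (F : ℍ → ℂ) τ) h
  simp only [compSL_apply] at h3
  rw [UpperHalfPlane.modular_T_zpow_smul] at h3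
  simpa using h3

/-- A holomorphic `M`-periodic function with moderate growth lies in `MerInf M`. -/
theorem mem_MerInf_of_modAt {M : ℕ} [NeZero M] {f : HolH}
    (hper : ∀ τ, (f : ℍ → ℂ) ((M : ℝ) +ᵥ τ) = (f : ℍ → ℂ) τ)
    (hmod : ModAt (f : ℍ → ℂ)) : f ∈ MerInf M := by
  obtain ⟨k, hk⟩ := hmod
  refine ⟨hper, M * k, ?_⟩
  have : (fun τ : ℍ => (f : ℍ → ℂ) τ * sPar M τ ^ (M * k)) =
      fun τ : ℍ => 𝕢 1 (τ : ℂ) ^ k * (f : ℍ → ℂ) τ := by
    funext τ
    rw [pow_mul, sPar_pow_natCast, mul_comm]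
  rw [this]
  exact hk

/-- every `theta x` has moderate growth at all cusps. -/
theorem theta_mem_cuspMod (ι : Kbar →+* ℂ) (N : ℕ) (x : A0 N) : theta ι N x ∈ cuspMod :=
  theta_image_induction (P := fun φ : HolH => φ ∈ cuspMod)
    (fun d _ _ => jScale_mem_cuspMod d (jScale d) (fun _ => rfl))
    (fun _ => Subalgebra.algebraMap_mem _ _)
    (fun _ _ h1 h2 => add_mem h1 h2) (fun _ _ h1 h2 => mul_mem h1 h2) x

theorem modAt_compSL_theta (ι : Kbar →+* ℂ) (N : ℕ) (g : SL(2, ℤ)) (x : A0 N) :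
    ModAt ((compSL g (theta ι N x) : HolH) : ℍ → ℂ) :=
  theta_mem_cuspMod ι N x g

variable {ι : Kbar →+* ℂ} {N : ℕ} {m : ℕ}

/-- The translates of `θ x` are `M`-periodic for every multiple `M` of `N`. -/
theorem compSL_T_compSL_theta (g : SL(2, ℤ)) (x : A0 N) {n : ℤ}
    (hn : g * ModularGroup.T ^ n * g⁻¹ ∈ Gamma0 N) :
    compSL (ModularGroup.T ^ n) (compSL g (theta ι N x)) = compSL g (theta ι N x) := by
  rw [compSL_conj, compSL_theta_of_mem_Gamma0 hn]

theorem compSL_theta_mem_MerInf (g : SL(2, ℤ)) (x : A0 N) {M : ℕ} [NeZero M] (hNM : N ∣ M) :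
    compSL g (theta ι N x) ∈ MerInf M :=
  mem_MerInf_of_modAt
    (periodic_of_compSL_T (compSL_T_compSL_theta g x
      (conj_T_zpow_mem_Gamma0 N g M (Int.natCast_dvd_natCast.mpr hNM))))
    (modAt_compSL_theta ι N g x)

/-- Moderate growth passes to `m`-th roots. -/
theorem modAt_of_pow {f P : ℍ → ℂ} (hm : 0 < m) (hP : ModAt P) (h : ∀ τ, f τ ^ m = P τ) :
    ModAt f := by
  obtain ⟨k, hk⟩ := hP
  rw [UpperHalfPlane.isBoundedAtImInfty_iff] at hk
  obtain ⟨B, A, hBA⟩ := hk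
  refine ⟨k, ?_⟩
  rw [UpperHalfPlane.isBoundedAtImInfty_iff]
  refine ⟨max 1 B, A, fun z hz => ?_⟩
  have h1 := hBA z hz
  set x : ℝ := ‖𝕢 1 (z : ℂ) ^ k * f z‖ with hx
  have hx0 : 0 ≤ x := norm_nonneg _
  have hq0 : 0 ≤ ‖𝕢 1 (z : ℂ)‖ := norm_nonneg _
  have hq1 : ‖𝕢 1 (z : ℂ)‖ ≤ 1 := norm_qParam_le_one' z
  have hxm : x ^ m ≤ B := by
    have e1 : x ^ m = (‖𝕢 1 (z : ℂ)‖ ^ k) ^ m * ‖P z‖ := by
      rw [hx, norm_mul, norm_pow, mul_pow, ← norm_pow (f z), h z]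
    have e2 : (‖𝕢 1 (z : ℂ)‖ ^ k) ^ m ≤ ‖𝕢 1 (z : ℂ)‖ ^ k := by
      rw [← pow_mul]
      exact pow_le_pow_of_le_one hq0 hq1 (Nat.le_mul_of_pos_right k hm)
    calc x ^ m = (‖𝕢 1 (z : ℂ)‖ ^ k) ^ m * ‖P z‖ := e1
      _ ≤ ‖𝕢 1 (z : ℂ)‖ ^ k * ‖P z‖ := mul_le_mul_of_nonneg_right e2 (norm_nonneg _)
      _ = ‖𝕢 1 (z : ℂ) ^ k * P z‖ := by rw [norm_mul, norm_pow]
      _ ≤ B := h1
  by_cases hx1 : x ≤ 1
  · exact le_trans hx1 (le_max_left _ _)
  · rw [not_le] at hx1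
    have : x ≤ x ^ m := le_self_pow₀ hx1.le hm.ne'
    exact le_trans (le_trans this hxm) (le_max_right _ _)

/-! ### The order function at the cusp `g ∞` -/

theorem ordR_pow {M : ℕ} [NeZero M] {f : MerInf M} (hf : f ≠ 0) (n : ℕ) :
    ordR (f ^ n) = n * ordR f := by
  induction n with
  | zero =>
    rw [pow_zero, ← map_one (algebraMap ℂ (MerInf M)), ordR_algebraMap one_ne_zero]
    simp
  | succ n ih =>
    rw [pow_succ, ordR_mul _ _ (pow_ne_zero n hf) hf, ih]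
    push_cast
    ring

/-- The subgroup of integers `k` with `M ∣ k * n`. -/
def dvdMulSubgroup (M : ℕ) (n : ℤ) : AddSubgroup ℤ where
  carrier := {k | (M : ℤ) ∣ k * n}
  zero_mem' := by
    show (M : ℤ) ∣ 0 * n
    rw [zero_mul]
    exact dvd_zero _
  add_mem' := by
    intro a b ha hb
    show (M : ℤ) ∣ (a + b) * n
    rw [add_mul]
    exact dvd_add ha hb
  neg_mem' := by
    intro a ha
    show (M : ℤ) ∣ (-a) * n
    rw [neg_mul]
    exact (dvd_neg).mpr ha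

theorem mem_dvdMulSubgroup {M : ℕ} {n k : ℤ} : k ∈ dvdMulSubgroup M n ↔ (M : ℤ) ∣ k * n :=
  Iff.rfl

/-- **Parabolic triviality.** If `m ∣ div (a / b)` and `H` is an `m`-th root of
`θ a * θ b ^ (m - 1)`, the multiplier of `H` under any conjugate `g T^n g⁻¹ ∈ Γ₀(N)` of a
translation is `1`. -/
theorem mult_eq_one_of_parabolic [NeZero N] (hm : 0 < m) {a b : A0 N} (ha : a ≠ 0) (hb : b ≠ 0)
    (hdiv : ∀ v : Place Kbar (FN N), (m : ℤ) ∣ v.ord (a : FN N) - v.ord (b : FN N))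
    {H : HolH} (hH : IsKummerRoot ι m a b H) (g : SL(2, ℤ)) (n : ℤ)
    (hσ : g * ModularGroup.T ^ n * g⁻¹ ∈ Gamma0 N) :
    mult (g * ModularGroup.T ^ n * g⁻¹) H = 1 := by
  have hH0 : H ≠ 0 := hH.ne_zero hm ha hb
  have hH'0 : compSL g H ≠ 0 := compSL_ne_zero g hH0
  have hNpos : 0 < N := Nat.pos_of_ne_zero (NeZero.ne N)
  set M : ℕ := N * m with hMdef
  have : NeZero M := ⟨(Nat.mul_pos hNpos hm).ne'⟩
  have hNM : N ∣ M := Dvd.intro m rfl
  -- the translate `H' = H ∘ g`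
  have hpow : compSL g H ^ m = compSL g (theta ι N a) * compSL g (theta ι N b) ^ (m - 1) := by
    rw [← map_pow, hH, map_mul, map_pow]
  -- `H'` is `M`-periodic
  have hperT : compSL (ModularGroup.T ^ (M : ℤ)) (compSL g H) = compSL g H := by
    have hmemN := conj_T_zpow_mem_Gamma0 N g (N : ℤ) dvd_rfl
    have e1 : IsEig (g * ModularGroup.T ^ (N : ℤ) * g⁻¹) H := hH.isEig hm hmemN
    have e2 : IsEig (ModularGroup.T ^ (N : ℤ)) (compSL g H) := (isEig_conj_iff g _ H).mp e1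
    have e3 : mult (ModularGroup.T ^ (N : ℤ)) (compSL g H) ^ m = 1 := by
      rw [mult_conj g _ hH0 e1]
      exact hH.mult_pow hm ha hb hmemN
    have e4 := e2.zpow_nat hH'0 m
    have e5 : (ModularGroup.T ^ (N : ℤ)) ^ m = ModularGroup.T ^ (M : ℤ) := by
      rw [← zpow_natCast, ← zpow_mul, hMdef]
      push_cast
      rfl
    rw [e5] at e4
    have e6 := e4.1.compSL_eq
    rw [e4.2, e3, map_one, one_mul] at e6
    exact e6
  -- `H'` has moderate growth
  have hmodH : ModAt ((compSL g H : HolH) : ℍ → ℂ) := by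
    have hP : ModAt ((compSL g (theta ι N (a * b ^ (m - 1))) : HolH) : ℍ → ℂ) :=
      modAt_compSL_theta ι N g _
    refine modAt_of_pow hm hP fun τ => ?_
    have := congrArg (fun F : HolH => (F : ℍ → ℂ) τ) hpow
    rw [map_mul, map_pow, map_mul, map_pow]
    exact this
  have hmemH : compSL g H ∈ MerInf M := mem_MerInf_of_modAt (periodic_of_compSL_T hperT) hmodH
  -- the order function at the cusp
  let ρ : A0 N → MerInf M := fun x => ⟨compSL g (theta ι N x), compSL_theta_mem_MerInf g x hNM⟩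
  have hρ0 : ∀ x : A0 N, x ≠ 0 → ρ x ≠ 0 := by
    intro x hx h0
    have h1 : compSL g (theta ι N x) = 0 := congrArg Subtype.val h0
    exact compSL_ne_zero g (theta_ne_zero hx) h1
  have hρmul : ∀ x y : A0 N, ρ (x * y) = ρ x * ρ y := by
    intro x y
    apply Subtype.ext
    show compSL g (theta ι N (x * y)) = compSL g (theta ι N x) * compSL g (theta ι N y)
    rw [map_mul, map_mul]
  have hρadd : ∀ x y : A0 N, ρ (x + y) = ρ x + ρ y := by
    intro x y
    apply Subtype.ext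
    show compSL g (theta ι N (x + y)) = compSL g (theta ι N x) + compSL g (theta ι N y)
    rw [map_add, map_add]
  have hρpow : ∀ (x : A0 N) (k : ℕ), ρ (x ^ k) = ρ x ^ k := by
    intro x k
    apply Subtype.ext
    show compSL g (theta ι N (x ^ k)) = compSL g (theta ι N x) ^ k
    rw [map_pow, map_pow]
  let o : A0 N → ℤ := fun x => ordR (ρ x)
  have hmul : ∀ x y : A0 N, x ≠ 0 → y ≠ 0 → o (x * y) = o x + o y := by
    intro x y hx hy
    show ordR (ρ (x * y)) = _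
    rw [hρmul, ordR_mul _ _ (hρ0 x hx) (hρ0 y hy)]
  have hadd : ∀ x y : A0 N, x ≠ 0 → y ≠ 0 → x + y ≠ 0 → min (o x) (o y) ≤ o (x + y) := by
    intro x y hx hy hxy
    show _ ≤ ordR (ρ (x + y))
    rw [hρadd]
    refine ordR_add _ _ (hρ0 x hx) (hρ0 y hy) ?_
    rw [← hρadd]
    exact hρ0 _ hxy
  have hK : ∀ c : Kbar, c ≠ 0 → o (algebraMap Kbar (A0 N) c) = 0 := by
    intro c hc
    have e : ρ (algebraMap Kbar (A0 N) c) = algebraMap ℂ (MerInf M) (ι c) := by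
      apply Subtype.ext
      show compSL g (theta ι N (algebraMap Kbar (A0 N) c)) = algebraMap ℂ HolH (ι c)
      rw [theta_algebraMap, AlgHom.commutes]
    show ordR (ρ (algebraMap Kbar (A0 N) c)) = 0
    rw [e]
    exact ordR_algebraMap ((map_ne_zero ι).mpr hc)
  have hZ : ∀ x : A0 N, x ≠ 0 → o x ∈ dvdMulSubgroup M n := by
    intro x hx
    show (M : ℤ) ∣ ordR (ρ x) * n
    exact dvd_ordInf_mul_of_compSL_T_zpow_eq (compSL_theta_mem_MerInf g x hNM)
      (compSL_ne_zero g (theta_ne_zero hx)) (compSL_T_compSL_theta g x hσ)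
  -- the order of `H'`
  let h' : MerInf M := ⟨compSL g H, hmemH⟩
  have hh'0 : h' ≠ 0 := by
    intro h0
    exact hH'0 (congrArg Subtype.val h0)
  have hpow' : h' ^ m = ρ a * ρ b ^ (m - 1) := by
    apply Subtype.ext
    show compSL g H ^ m = compSL g (theta ι N a) * compSL g (theta ι N b) ^ (m - 1)
    exact hpow
  have hk : (m : ℤ) * ordR h' = o a + ((m : ℤ) - 1) * o b := by
    have h1 : ordR (h' ^ m) = (m : ℤ) * ordR h' := ordR_pow hh'0 m
    have h2 : ordR (ρ a * ρ b ^ (m - 1)) = ordR (ρ a) + ((m - 1 : ℕ) : ℤ) * ordR (ρ b) := by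
      rw [ordR_mul _ _ (hρ0 a ha) (pow_ne_zero _ (hρ0 b hb)), ordR_pow (hρ0 b hb)]
    have h3 : ((m - 1 : ℕ) : ℤ) = (m : ℤ) - 1 := by
      rw [Nat.cast_sub hm]
      simp
    rw [← h1, hpow', h2, h3]
  have hmem := mem_of_mul_eq (K := Kbar) (F := FN N) o hmul hadd hK (dvdMulSubgroup M n) hZ m hm
    a b ha hb hdiv (ordR h') hk
  have hdvd : (M : ℤ) ∣ ordR h' * n := hmem
  -- the multiplier is `rootExp M n ^ ordR h'`
  have heig : IsEig (g * ModularGroup.T ^ n * g⁻¹) H := hH.isEig hm hσ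
  have heig' : IsEig (ModularGroup.T ^ n) (compSL g H) := (isEig_conj_iff g _ H).mp heig
  have hmult : mult (ModularGroup.T ^ n) (compSL g H) = mult (g * ModularGroup.T ^ n * g⁻¹) H :=
    mult_conj g _ hH0 heig
  obtain ⟨c, hc0, hc⟩ := exists_hasOrd_ordR h' hh'0
  have hv := hc.vadd n
  have hv' : HasOrd M (fun τ => ((h' : HolH) : ℍ → ℂ) ((n : ℝ) +ᵥ τ)) (ordR h')
      (mult (ModularGroup.T ^ n) (compSL g H) * c) := by
    have h1 : Tendsto (fun τ => mult (ModularGroup.T ^ n) (compSL g H) *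
        (((h' : HolH) : ℍ → ℂ) τ * sPar M τ ^ (-(ordR h')))) atImInfty
        (𝓝 (mult (ModularGroup.T ^ n) (compSL g H) * c)) := hc.const_mul _
    refine h1.congr fun τ => ?_
    have h2 := congrArg (fun F : HolH => (F : ℍ → ℂ) τ) heig'.compSL_eq
    simp only [compSL_apply] at h2
    rw [UpperHalfPlane.modular_T_zpow_smul] at h2
    show mult (ModularGroup.T ^ n) (compSL g H) * ((compSL g H : ℍ → ℂ) τ * _) =
      (compSL g H : ℍ → ℂ) ((n : ℝ) +ᵥ τ) * _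
    simp only [compSL_apply]
    rw [h2]
    show _ = mult (ModularGroup.T ^ n) (compSL g H) * (H : ℍ → ℂ) (g • τ) * _
    ring
  have h3 : c * rootExp M n ^ (ordR h') = mult (ModularGroup.T ^ n) (compSL g H) * c :=
    tendsto_nhds_unique hv hv'
  have h4 : rootExp M n ^ (ordR h') = 1 := (rootExp_zpow_eq_one_iff M n (ordR h')).mpr hdvd
  rw [h4, mul_one] at h3
  rw [← hmult]
  have h5 : (1 : ℂ) * c = mult (ModularGroup.T ^ n) (compSL g H) * c := by rw [one_mul]; exact h3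
  exact (mul_right_cancel₀ hc0 h5).symm

/-- Parabolic triviality, with the sign: `-(g T^n g⁻¹) ∈ Γ₀(N)`. -/
theorem mult_eq_one_of_neg_parabolic [NeZero N] (hm : 0 < m) {a b : A0 N} (ha : a ≠ 0)
    (hb : b ≠ 0)
    (hdiv : ∀ v : Place Kbar (FN N), (m : ℤ) ∣ v.ord (a : FN N) - v.ord (b : FN N))
    {H : HolH} (hH : IsKummerRoot ι m a b H) (g : SL(2, ℤ)) (n : ℤ)
    (hσ : -(g * ModularGroup.T ^ n * g⁻¹) ∈ Gamma0 N) :
    mult (-(g * ModularGroup.T ^ n * g⁻¹)) H = 1 := by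
  have hH0 : H ≠ 0 := hH.ne_zero hm ha hb
  have hneg : -(g * ModularGroup.T ^ n * g⁻¹) = (-1 : SL(2, ℤ)) * (g * ModularGroup.T ^ n * g⁻¹) := by
    rw [neg_one_mul]
  have hσ' : g * ModularGroup.T ^ n * g⁻¹ ∈ Gamma0 N := by
    have h1 := (Gamma0 N).mul_mem (neg_one_mem_Gamma0 N) hσ
    rwa [neg_one_mul, neg_neg] at h1
  rw [hneg, (hH.isEig hm (neg_one_mem_Gamma0 N)).mult_mul (hH.isEig hm hσ') hH0,
    mult_eq_one_of_parabolic hm ha hb hdiv hH g n hσ', mul_one]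
  refine mult_eq_one_of_compSL_eq hH0 ?_
  apply Subtype.ext
  funext τ
  show (H : ℍ → ℂ) ((-1 : SL(2, ℤ)) • τ) = (H : ℍ → ℂ) τ
  rw [ModularGroup.SL_neg_smul, one_smul]

end Fermat.Agent.S30.KummerChar

end
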