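import Mathlib
import Fermat.Agent.S30.KummerChar.Root

set_option autoImplicit false
set_option linter.dupNamespace false

/-!
# Kummer characters are trivial on elements with a fixed point in `ℍ`

If `m ∣ div (a / b)` and `H ^ m = θ a * θ b ^ (m - 1)`, then the multiplier of `H` under any
`σ ∈ Γ₀(N)` fixing a point `τ ∈ ℍ` is `1`.  (This covers the elliptic elements and `-1`.)
-/

noncomputable section

open scoped MatrixGroups Topology
open AlgebraicCurve UpperHalfPlane ModularCurve CongruenceSubgroup Filter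
open Fermat.Agent.S24.HolH Fermat.Agent.S24.Theta Fermat.Agent.S24.Modular

namespace Fermat.Agent.S30.KummerChar

/-- Local rotation lemma with multiplier: if `F ∘ G = c • F` near a fixed point `z0` of `G`,
then `G'(z0)` raised to the vanishing order of `F` at `z0` is `c`. -/
theorem deriv_pow_order_eq_mult {F G : ℂ → ℂ} {z0 c : ℂ} (hF : AnalyticAt ℂ F z0)
    (hG : AnalyticAt ℂ G z0) (hG0 : G z0 = z0) (hFG : F ∘ G =ᶠ[𝓝 z0] fun z => c * F z)
    (hn : analyticOrderAt F z0 ≠ ⊤) :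
    deriv G z0 ^ (analyticOrderAt F z0).toNat = c := by
  obtain ⟨h, hh, hh0, hFh⟩ := hF.analyticOrderAt_ne_top.mp hn
  set n := analyticOrderNatAt F z0 with hn_def
  have hn' : (analyticOrderAt F z0).toNat = n := rfl
  rw [hn']
  set k := dslope G z0 with hk
  have hkc : ContinuousAt k z0 := continuousAt_dslope_same.mpr hG.differentiableAt
  have hk0 : k z0 = deriv G z0 := dslope_same G z0
  have hkz : ∀ z, G z - z0 = (z - z0) * k z := by
    intro z
    have := sub_smul_dslope G z0 z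
    rw [hG0] at this
    rw [← this, smul_eq_mul]
  have hGt : Tendsto G (𝓝 z0) (𝓝 z0) := by
    have := hG.continuousAt
    rw [ContinuousAt, hG0] at this
    exact this
  have h1 : ∀ᶠ z in 𝓝 z0, F (G z) = (G z - z0) ^ n • h (G z) := hFh.comp_tendsto hGt
  have h2 : ∀ᶠ z in 𝓝 z0, (z - z0) ^ n * (c * h z) = (z - z0) ^ n * (k z ^ n * h (G z)) := by
    filter_upwards [h1, hFh, hFG] with z hz1 hz2 hz3
    have e1 : F z = (z - z0) ^ n * h z := by simpa [smul_eq_mul] using hz2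
    have e2 : F (G z) = ((z - z0) * k z) ^ n * h (G z) := by
      rw [hz1, hkz z, smul_eq_mul]
    have e3 : F (G z) = c * F z := hz3
    have e4 : (z - z0) ^ n * (c * h z) = c * F z := by rw [e1]; ring
    rw [e4, ← e3, e2, mul_pow]
    ring
  have h3 : ∀ᶠ z in 𝓝[≠] z0, c * h z = k z ^ n * h (G z) := by
    have h2' : ∀ᶠ z in 𝓝[≠] z0,
        (z - z0) ^ n * (c * h z) = (z - z0) ^ n * (k z ^ n * h (G z)) :=
      h2.filter_mono nhdsWithin_le_nhds
    filter_upwards [h2', self_mem_nhdsWithin] with z hz hzne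
    have hzne' : z - z0 ≠ 0 := sub_ne_zero.mpr hzne
    exact mul_left_cancel₀ (pow_ne_zero n hzne') hz
  have hlim1 : Tendsto (fun z => c * h z) (𝓝[≠] z0) (𝓝 (c * h z0)) :=
    (hh.continuousAt.tendsto.const_mul c).mono_left nhdsWithin_le_nhds
  have hlim2 : Tendsto (fun z => k z ^ n * h (G z)) (𝓝[≠] z0) (𝓝 (k z0 ^ n * h z0)) := by
    have hc : ContinuousAt (fun z => k z ^ n * h (G z)) z0 := by
      refine (hkc.pow n).mul ?_
      have hh' : ContinuousAt h (G z0) := by rw [hG0]; exact hh.continuousAt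
      exact ContinuousAt.comp (f := G) (g := h) hh' hG.continuousAt
    have := hc.tendsto
    simp only [hG0] at this
    exact this.mono_left nhdsWithin_le_nhds
  have heq : c * h z0 = k z0 ^ n * h z0 := tendsto_nhds_unique_of_eventuallyEq hlim1 hlim2 h3
  rw [hk0] at heq
  exact (mul_right_cancel₀ hh0 heq).symm

/-- Rotation lemma with multiplier on the upper half plane. -/
theorem multiplier_pow_ordAt_eq_mult (g : SL(2, ℤ)) (τ0 : ℍ) (hfix : g • τ0 = τ0) (f : HolH)
    (hf : f ≠ 0) {c : ℂ} (hinv : compSL g f = algebraMap ℂ HolH c * f) :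
    (1 / denom (g : GL (Fin 2) ℝ) τ0 ^ 2) ^ (ordAt τ0 f).toNat = c := by
  have hg' : (0 : ℝ) < ((g : GL (Fin 2) ℝ)).det.val := by simp
  have hg : (0 : ℝ) < ((g : GL (Fin 2) ℝ)).val.det := hg'
  have hG : AnalyticAt ℂ (moebC g) (τ0 : ℂ) := τ0.analyticAt_smul hg
  have hG0 : moebC g (τ0 : ℂ) = (τ0 : ℂ) := by rw [moebC_apply, hfix]
  have hFG : toC f ∘ moebC g =ᶠ[𝓝 (τ0 : ℂ)] fun z => c * toC f z := by
    have hcomp : toC (compSL g f) = toC f ∘ moebC g := by
      funext z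
      simp only [toC, Function.comp_apply, compSL_apply, ofComplex_apply, moebC]
      rfl
    have hmul : toC (algebraMap ℂ HolH c * f) = fun z => c * toC f z := by
      funext z
      rfl
    rw [← hcomp, hinv, hmul]
  have := deriv_pow_order_eq_mult (toC_analyticAt f τ0) hG hG0 hFG (ordAt_ne_top hf)
  rw [deriv_moebC] at this
  exact this

theorem ordZ_pow (τ0 : ℍ) {f : HolH} (hf : f ≠ 0) (n : ℕ) :
    ordZ τ0 (f ^ n) = n * ordZ τ0 f := by
  induction n with
  | zero => simp [ordZ_one]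
  | succ n ih =>
    rw [pow_succ, ordZ_mul τ0 (pow_ne_zero n hf) hf, ih]
    push_cast
    ring

variable {ι : Kbar →+* ℂ} {N : ℕ} {m : ℕ}

/-- The subgroup of exponents killing a nonzero complex number. -/
def zpowKer (μ : ℂ) (hμ : μ ≠ 0) : AddSubgroup ℤ where
  carrier := {k | μ ^ k = 1}
  zero_mem' := zpow_zero μ
  add_mem' := by
    intro a b ha hb
    show μ ^ (a + b) = 1
    rw [zpow_add₀ hμ, show μ ^ a = 1 from ha, show μ ^ b = 1 from hb, one_mul]
  neg_mem' := by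
    intro a ha
    show μ ^ (-a) = 1
    rw [zpow_neg, show μ ^ a = 1 from ha, inv_one]

theorem mem_zpowKer {μ : ℂ} {hμ : μ ≠ 0} {k : ℤ} : k ∈ zpowKer μ hμ ↔ μ ^ k = 1 := Iff.rfl

/-- **Elliptic triviality.** If `m ∣ div (a / b)` and `H` is an `m`-th root of
`θ a * θ b ^ (m - 1)`, the multiplier of `H` under any `σ ∈ Γ₀(N)` with a fixed point is `1`. -/
theorem mult_eq_one_of_fixed (hm : 0 < m) {a b : A0 N} (ha : a ≠ 0) (hb : b ≠ 0)
    (hdiv : ∀ v : Place Kbar (FN N), (m : ℤ) ∣ v.ord (a : FN N) - v.ord (b : FN N))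
    {H : HolH} (hH : IsKummerRoot ι m a b H)
    {σ : SL(2, ℤ)} (hσ : σ ∈ Gamma0 N) {τ : ℍ} (hfix : σ • τ = τ) : mult σ H = 1 := by
  set μ : ℂ := 1 / denom (σ : GL (Fin 2) ℝ) τ ^ 2 with hμdef
  have hμ : μ ≠ 0 := one_div_ne_zero (pow_ne_zero 2 (denom_ne_zero _ τ))
  have hH0 : H ≠ 0 := hH.ne_zero hm ha hb
  let o : A0 N → ℤ := fun x => ordZ τ (theta ι N x)
  have hmul : ∀ x y : A0 N, x ≠ 0 → y ≠ 0 → o (x * y) = o x + o y := by
    intro x y hx hy
    show ordZ τ (theta ι N (x * y)) = _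
    rw [map_mul, ordZ_mul τ (theta_ne_zero hx) (theta_ne_zero hy)]
  have hadd : ∀ x y : A0 N, x ≠ 0 → y ≠ 0 → x + y ≠ 0 → min (o x) (o y) ≤ o (x + y) := by
    intro x y hx hy hxy
    show _ ≤ ordZ τ (theta ι N (x + y))
    rw [map_add]
    refine min_le_ordZ_add τ (theta_ne_zero hx) (theta_ne_zero hy) ?_
    rw [← map_add]
    exact theta_ne_zero hxy
  have hK : ∀ c : Kbar, c ≠ 0 → o (algebraMap Kbar (A0 N) c) = 0 := by
    intro c hc
    show ordZ τ (theta ι N (algebraMap Kbar (A0 N) c)) = 0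
    rw [theta_algebraMap]
    exact ordZ_algebraMap ((map_ne_zero ι).mpr hc)
  have hZ : ∀ x : A0 N, x ≠ 0 → o x ∈ zpowKer μ hμ := by
    intro x hx
    show μ ^ (ordZ τ (theta ι N x)) = 1
    rw [ordZ, zpow_natCast]
    exact multiplier_pow_ordAt_eq_one σ τ hfix _ (theta_ne_zero hx)
      (compSL_theta_of_mem_Gamma0 hσ x)
  have hk : (m : ℤ) * ordZ τ H = o a + ((m : ℤ) - 1) * o b := by
    have h1 : ordZ τ (H ^ m) = (m : ℤ) * ordZ τ H := ordZ_pow τ hH0 m
    have h2 : ordZ τ (theta ι N a * theta ι N b ^ (m - 1)) =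
        ordZ τ (theta ι N a) + ((m - 1 : ℕ) : ℤ) * ordZ τ (theta ι N b) := by
      rw [ordZ_mul τ (theta_ne_zero ha) (pow_ne_zero _ (theta_ne_zero hb)),
        ordZ_pow τ (theta_ne_zero hb)]
    have h3 : ((m - 1 : ℕ) : ℤ) = (m : ℤ) - 1 := by
      rw [Nat.cast_sub hm]
      simp
    rw [← h1, hH, h2, h3]
  have hmem := mem_of_mul_eq (K := Kbar) (F := FN N) o hmul hadd hK (zpowKer μ hμ) hZ m hm a b
    ha hb hdiv (ordZ τ H) hk
  have h1 : μ ^ (ordZ τ H) = 1 := hmem
  rw [ordZ, zpow_natCast] at h1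
  have h2 := multiplier_pow_ordAt_eq_mult σ τ hfix H hH0 (hH.isEig hm hσ).compSL_eq
  rw [← h2]
  exact h1

/-- The multiplier of `-1` is trivial (for any nonzero `H`). -/
theorem mult_neg_one {H : HolH} (hH : H ≠ 0) : mult (-1 : SL(2, ℤ)) H = 1 := by
  refine mult_eq_one_of_compSL_eq hH ?_
  apply Subtype.ext
  funext τ
  show (H : ℍ → ℂ) ((-1 : SL(2, ℤ)) • τ) = (H : ℍ → ℂ) τ
  rw [ModularGroup.SL_neg_smul, one_smul]

end Fermat.Agent.S30.KummerChar

end
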