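import Mathlib
import Fermat.Agent.S30.KummerChar.Basic

set_option autoImplicit false
set_option linter.dupNamespace false

/-!
# Kummer characters: independence of the root, at the level of `HolH`

The `HolH`-level core of `IsKummerRoot.mult_eq`: if `H ^ m = A * B ^ (m - 1)` and
`H' ^ m = A' * B' ^ (m - 1)` with `A * B' = A' * B` (same "quotient `A / B`"), and `B`, `B'` are
`γ`-invariant, then `H` and `H'` have the same multiplier under `γ`.  Nothing here refers to
`θ`, `A0 N` or `q`-expansions, so the lemma compares roots coming from different descriptions of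
the same function (e.g. a `ℂ`-side and a `ℚ̄`-side description).
-/

noncomputable section

open scoped MatrixGroups
open UpperHalfPlane
open Fermat.Agent.S24.HolH

namespace Fermat.Agent.S30.KummerChar

theorem smul_eq_algebraMap_mul (c : ℂ) (H : HolH) : c • H = algebraMap ℂ HolH c * H :=
  Algebra.smul_def c H

/-- The multiplier from an eigen-equation written with `•`. -/
theorem mult_eq_of_compSL_eq_smul {γ : SL(2, ℤ)} {H : HolH} (hH : H ≠ 0) {c : ℂ}
    (h : compSL γ H = c • H) : mult γ H = c :=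
  mult_eq_of_eq hH (by rw [h, smul_eq_algebraMap_mul])

theorem isEig_of_compSL_eq_smul {γ : SL(2, ℤ)} {H : HolH} {c : ℂ}
    (h : compSL γ H = c • H) : IsEig γ H :=
  ⟨c, by rw [h, smul_eq_algebraMap_mul]⟩

theorem IsEig.compSL_eq_smul {γ : SL(2, ℤ)} {H : HolH} (h : IsEig γ H) :
    compSL γ H = mult γ H • H := by
  rw [smul_eq_algebraMap_mul]
  exact h.compSL_eq

/-- Two `m`-th roots of "the same quotient" differ by a constant after clearing denominators. -/
theorem exists_const_mul_eq {m : ℕ} (hm : 0 < m) {A B A' B' H H' : HolH}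
    (hH : H ^ m = A * B ^ (m - 1)) (hH' : H' ^ m = A' * B' ^ (m - 1)) (hAB : A * B' = A' * B) :
    ∃ c : ℂ, c ^ m = 1 ∧ H * B' = algebraMap ℂ HolH c * (H' * B) := by
  have hpow : (H * B') ^ m = (H' * B) ^ m := by
    have hm' : m = (m - 1) + 1 := (Nat.sub_add_cancel hm).symm
    have e2 : B' ^ m = B' ^ (m - 1) * B' := by
      conv_lhs => rw [hm', pow_succ]
    have e3 : B ^ m = B ^ (m - 1) * B := by
      conv_lhs => rw [hm', pow_succ]
    rw [mul_pow, mul_pow, hH, hH', e2, e3]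
    linear_combination (B ^ (m - 1) * B' ^ (m - 1)) * hAB
  exact exists_const_of_pow_eq hm hpow

/-- **Independence of the root.** -/
theorem mult_eq_of_pow_eq {m : ℕ} (hm : 0 < m) {A B A' B' H H' : HolH} (hB : B ≠ 0)
    (hB' : B' ≠ 0) (hH0 : H ≠ 0) (hH'0 : H' ≠ 0) (hH : H ^ m = A * B ^ (m - 1))
    (hH' : H' ^ m = A' * B' ^ (m - 1)) (hAB : A * B' = A' * B) {γ : SL(2, ℤ)}
    (hγB : compSL γ B = B) (hγB' : compSL γ B' = B') (he : IsEig γ H) (he' : IsEig γ H') :
    mult γ H = mult γ H' := by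
  obtain ⟨c, hc1, hc⟩ := exists_const_mul_eq hm hH hH' hAB
  have hc0 : c ≠ 0 := by
    rintro rfl
    rw [zero_pow hm.ne'] at hc1
    exact zero_ne_one hc1
  have i1 : IsEig γ B' := isEig_of_compSL_eq hγB'
  have i2 : IsEig γ B := isEig_of_compSL_eq hγB
  have m1 : mult γ B' = 1 := mult_eq_one_of_compSL_eq hB' hγB'
  have m2 : mult γ B = 1 := mult_eq_one_of_compSL_eq hB hγB
  have l1 : mult γ (H * B') = mult γ H := by
    rw [he.mult_mul_fun i1 hH0 hB', m1, mul_one]
  have l2 : mult γ (algebraMap ℂ HolH c * (H' * B)) = mult γ H' := by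
    rw [(he'.mul_fun i2).mult_smul_fun (mul_ne_zero hH'0 hB) hc0, he'.mult_mul_fun i2 hH'0 hB, m2,
      mul_one]
  rw [← l1, hc, l2]

/-- Independence of the root, with explicit multipliers (either form of the eigen-equation can
be fed through `mult_eq_of_eq` / `mult_eq_of_compSL_eq_smul`). -/
theorem const_eq_of_pow_eq {m : ℕ} (hm : 0 < m) {A B A' B' H H' : HolH} (hB : B ≠ 0)
    (hB' : B' ≠ 0) (hH0 : H ≠ 0) (hH'0 : H' ≠ 0) (hH : H ^ m = A * B ^ (m - 1))
    (hH' : H' ^ m = A' * B' ^ (m - 1)) (hAB : A * B' = A' * B) {γ : SL(2, ℤ)}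
    (hγB : compSL γ B = B) (hγB' : compSL γ B' = B') {c c' : ℂ} (hc : compSL γ H = c • H)
    (hc' : compSL γ H' = c' • H') : c = c' := by
  have h := mult_eq_of_pow_eq hm hB hB' hH0 hH'0 hH hH' hAB hγB hγB'
    (isEig_of_compSL_eq_smul hc) (isEig_of_compSL_eq_smul hc')
  rwa [mult_eq_of_compSL_eq_smul hH0 hc, mult_eq_of_compSL_eq_smul hH'0 hc'] at h

/-- A root of `A * B ^ (m - 1)` is an eigenfunction of every `γ` fixing `A` and `B`. -/
theorem isEig_of_root {m : ℕ} (hm : 0 < m) {A B H : HolH} (hH : H ^ m = A * B ^ (m - 1))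
    {γ : SL(2, ℤ)} (hγA : compSL γ A = A) (hγB : compSL γ B = B) : IsEig γ H :=
  isEig_of_pow hm (by rw [hH, map_mul, map_pow, hγA, hγB])

/-- Transfer of a root along a constant: if `H₀ ^ m = A * B ^ (m - 1)` is any root (e.g. from
`Lib.HolRootH`) and `H'` is a root of `A' * B' ^ (m - 1)` with `A * B' = A' * B` and known
multiplier `c'` under `γ`, then `H₀` has multiplier `c'` under `γ` as well. -/
theorem mult_eq_of_root {m : ℕ} (hm : 0 < m) {A B A' B' H₀ H' : HolH} (hA : A ≠ 0) (hB : B ≠ 0)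
    (hB' : B' ≠ 0) (hH'0 : H' ≠ 0) (hH : H₀ ^ m = A * B ^ (m - 1))
    (hH' : H' ^ m = A' * B' ^ (m - 1)) (hAB : A * B' = A' * B) {γ : SL(2, ℤ)}
    (hγA : compSL γ A = A) (hγB : compSL γ B = B) (hγB' : compSL γ B' = B') {c' : ℂ}
    (hc' : compSL γ H' = c' • H') : mult γ H₀ = c' := by
  have hH₀0 : H₀ ≠ 0 := by
    rintro rfl
    rw [zero_pow hm.ne'] at hH
    exact mul_ne_zero hA (pow_ne_zero _ hB) hH.symm
  have h := mult_eq_of_pow_eq hm hB hB' hH₀0 hH'0 hH hH' hAB hγB hγB'
    (isEig_of_root hm hH hγA hγB) (isEig_of_compSL_eq_smul hc')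
  rwa [mult_eq_of_compSL_eq_smul hH'0 hc'] at h

end Fermat.Agent.S30.KummerChar

end
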