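import Mathlib
import Fermat.Agent.Lib.HolRootH
import Fermat.Agent.S30.KummerChar.Elliptic
import Fermat.Agent.S30.KummerChar.Cusp

set_option autoImplicit false
set_option linter.dupNamespace false

/-!
# Kummer characters: the packaged statement

For `a b : A0 N` nonzero with `m ∣ div (a / b)` (at all places of `F_N / ℚ̄`):

* `dvd_ordZ_sub`: `m ∣ ord_τ (θ a) - ord_τ (θ b)` at every point `τ` of the upper half plane;
* `exists_isKummerRoot`: a holomorphic `m`-th root `H` of `θ a * θ b ^ (m - 1)` exists;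
* `exists_kummerChar`: `H` transforms under `Γ₀(N)` by a character with values in `μ_m`, which is
  trivial on every element with a fixed point in `ℍ` and on every conjugate `± g T^n g⁻¹`.
-/

noncomputable section

open scoped MatrixGroups
open AlgebraicCurve UpperHalfPlane ModularCurve CongruenceSubgroup
open Fermat.Agent.S24.HolH Fermat.Agent.S24.Theta Fermat.Agent.S24.Modular

namespace Fermat.Agent.S30.KummerChar

variable {ι : Kbar →+* ℂ} {N : ℕ} {m : ℕ}

/-- Translation of the divisibility hypothesis from `f` to a representation `f = a / b`. -/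
theorem dvd_ord_sub_of_mul_eq {f : FN N} (hf : f ≠ 0) {a b : A0 N} (hb : b ≠ 0)
    (hab : f * (b : FN N) = (a : FN N))
    (hdiv : ∀ v : Place Kbar (FN N), (m : ℤ) ∣ v.ord f) (v : Place Kbar (FN N)) :
    (m : ℤ) ∣ v.ord (a : FN N) - v.ord (b : FN N) := by
  have hb' : (b : FN N) ≠ 0 := fun h => hb (Subtype.ext h)
  rw [← hab, v.ord_mul hf hb', add_sub_cancel_right]
  exact hdiv v

theorem ne_zero_of_mul_eq {f : FN N} (hf : f ≠ 0) {a b : A0 N} (hb : b ≠ 0)
    (hab : f * (b : FN N) = (a : FN N)) : a ≠ 0 := by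
  rintro rfl
  have hb' : (b : FN N) ≠ 0 := fun h => hb (Subtype.ext h)
  exact mul_ne_zero hf hb' hab

/-- **Analytic divisibility.** If `m ∣ div (a / b)` then `m` divides the order of `θ a / θ b` at
every point of the upper half plane. -/
theorem dvd_ordZ_sub {a b : A0 N} (ha : a ≠ 0) (hb : b ≠ 0)
    (hdiv : ∀ v : Place Kbar (FN N), (m : ℤ) ∣ v.ord (a : FN N) - v.ord (b : FN N)) (τ : ℍ) :
    (m : ℤ) ∣ ordZ τ (theta ι N a) - ordZ τ (theta ι N b) := by
  let o : A0 N → ℤ := fun x => ordZ τ (theta ι N x)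
  have hmul : ∀ x y : A0 N, x ≠ 0 → y ≠ 0 → o (x * y) = o x + o y := by
    intro x y hx hy
    show ordZ τ (theta ι N (x * y)) = _
    rw [map_mul, ordZ_mul τ (theta_ne_zero hx) (theta_ne_zero hy)]
  have hadd : ∀ x y : A0 N, x ≠ 0 → y ≠ 0 → x + y ≠ 0 → min (o x) (o y) ≤ o (x + y) := by
    intro x y hx hy hxy
    show _ ≤ ordZ τ (theta ι N (x + y))
    rw [map_add]
    refine min_le_ordZ_add τ (theta_ne_zero hx) (theta_ne_zero hy) ?_
    rw [← map_add]
    exact theta_ne_zero hxy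
  have hK : ∀ c : Kbar, c ≠ 0 → o (algebraMap Kbar (A0 N) c) = 0 := by
    intro c hc
    show ordZ τ (theta ι N (algebraMap Kbar (A0 N) c)) = 0
    rw [theta_algebraMap]
    exact ordZ_algebraMap ((map_ne_zero ι).mpr hc)
  obtain ⟨t, -, ht⟩ := exists_eq_mul_of_dvd_ord (K := Kbar) (F := FN N) o hmul hadd hK ⊤
    (fun _ _ => AddSubgroup.mem_top _) m a b ha hb hdiv
  exact ⟨t, ht⟩

/-- **Existence of the root.** -/
theorem exists_isKummerRoot (hm : 0 < m) {a b : A0 N} (ha : a ≠ 0) (hb : b ≠ 0)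
    (hdiv : ∀ v : Place Kbar (FN N), (m : ℤ) ∣ v.ord (a : FN N) - v.ord (b : FN N)) :
    ∃ H : HolH, IsKummerRoot ι m a b H := by
  obtain ⟨H, -, hH, -⟩ := Fermat.Agent.Lib.HolRootH.exists_root_frac m hm.ne' (theta ι N a)
    (theta ι N b) (theta_ne_zero ha) (theta_ne_zero hb) (dvd_ordZ_sub ha hb hdiv)
  exact ⟨H, hH⟩

/-- **The Kummer character** of a function `a / b` with `m ∣ div (a / b)`: a holomorphic `m`-th
root `H` of `θ a * θ b ^ (m - 1)` and a character `χ : Γ₀(N) → μ_m` with `H ∘ γ = χ γ • H`,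
trivial on the elements having a fixed point in `ℍ` (elliptic elements, `± 1`) and on the
parabolic elements `± g T^n g⁻¹`. -/
theorem exists_kummerChar [NeZero N] (ι : Kbar →+* ℂ) (hm : 0 < m) {a b : A0 N} (ha : a ≠ 0)
    (hb : b ≠ 0)
    (hdiv : ∀ v : Place Kbar (FN N), (m : ℤ) ∣ v.ord (a : FN N) - v.ord (b : FN N)) :
    ∃ (H : HolH) (χ : ↥(Gamma0 N) →* ℂˣ), H ≠ 0 ∧ IsKummerRoot ι m a b H ∧
      (∀ γ : ↥(Gamma0 N), compSL (γ : SL(2, ℤ)) H = algebraMap ℂ HolH ((χ γ : ℂˣ) : ℂ) * H) ∧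
      (∀ γ : ↥(Gamma0 N), χ γ ^ m = 1) ∧
      (∀ γ : ↥(Gamma0 N), (∃ τ : ℍ, (γ : SL(2, ℤ)) • τ = τ) → χ γ = 1) ∧
      (∀ (γ : ↥(Gamma0 N)) (g : SL(2, ℤ)) (n : ℤ),
        (γ : SL(2, ℤ)) = g * ModularGroup.T ^ n * g⁻¹ → χ γ = 1) ∧
      (∀ (γ : ↥(Gamma0 N)) (g : SL(2, ℤ)) (n : ℤ),
        (γ : SL(2, ℤ)) = -(g * ModularGroup.T ^ n * g⁻¹) → χ γ = 1) := by
  obtain ⟨H, hH⟩ := exists_isKummerRoot (ι := ι) hm ha hb hdiv
  refine ⟨H, kummerChar hH hm ha hb, hH.ne_zero hm ha hb, hH, compSL_eq_kummerChar hH hm ha hb,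
    kummerChar_pow hH hm ha hb, ?_, ?_, ?_⟩
  · rintro γ ⟨τ, hτ⟩
    apply Units.ext
    rw [kummerChar_apply]
    exact mult_eq_one_of_fixed hm ha hb hdiv hH γ.2 hτ
  · intro γ g n hγ
    apply Units.ext
    rw [kummerChar_apply, hγ]
    exact mult_eq_one_of_parabolic hm ha hb hdiv hH g n (hγ ▸ γ.2)
  · intro γ g n hγ
    apply Units.ext
    rw [kummerChar_apply, hγ]
    exact mult_eq_one_of_neg_parabolic hm ha hb hdiv hH g n (hγ ▸ γ.2)

end Fermat.Agent.S30.KummerChar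

end
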